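import Mathlib
import Fermat.Agent.S16.Defs
import Fermat.Agent.S20.C0_helper516
import Fermat.Prelude.Thm_CongruenceSubgroup_one_mem_strictPeriods_Gamma0

/-!
# S16 / helper62 : function-level `qCoeff` calculus on `MF (Gamma0 N) k`
-/

set_option autoImplicit false

noncomputable section

namespace Fermat.Agent.S16.H62

open UpperHalfPlane ModularForm CongruenceSubgroup MatrixGroups ModularFormClass
open Fermat.Agent.S20 (MF SF)

variable {N : ℕ} [NeZero N] {k : ℤ}

theorem one_mem_strictPeriods' (N : ℕ) :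
    (1 : ℝ) ∈ ((Gamma0 N : Subgroup SL(2, ℤ)) : Subgroup (GL (Fin 2) ℝ)).strictPeriods :=
  CongruenceSubgroup.one_mem_strictPeriods_Gamma0 N

theorem qCoeff_smul_of_mem {G : ℍ → ℂ} (hG : G ∈ MF (Gamma0 N) k) (c : ℂ) (n : ℕ) :
    qCoeff (c • G) n = c * qCoeff G n := by
  obtain ⟨g, rfl⟩ := Fermat.Agent.S20.C0h516.mem_MF_iff_exists.mp hG
  simp only [qCoeff]
  rw [ModularForm.qExpansion_smul one_pos (one_mem_strictPeriods' N) c g]
  simp

theorem qCoeff_add_of_mem {G H : ℍ → ℂ} (hG : G ∈ MF (Gamma0 N) k) (hH : H ∈ MF (Gamma0 N) k)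
    (n : ℕ) : qCoeff (G + H) n = qCoeff G n + qCoeff H n := by
  obtain ⟨g, rfl⟩ := Fermat.Agent.S20.C0h516.mem_MF_iff_exists.mp hG
  obtain ⟨h, rfl⟩ := Fermat.Agent.S20.C0h516.mem_MF_iff_exists.mp hH
  simp only [qCoeff]
  rw [ModularForm.qExpansion_add one_pos (one_mem_strictPeriods' N) g h, map_add]

end Fermat.Agent.S16.H62
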