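import Fermat.Agent.S16.H62.L1

/-!
# S16 / helper62 : WP L1 — `evRho_int` (exact skeleton shape)

A level one form of weight `12 j` with integral `q`-expansion takes at a zero `ρ` of `E₄` a value
in `ℤ · Δ(ρ)^j`.
-/

set_option autoImplicit false

noncomputable section

namespace Fermat.Agent.S16.H62

open UpperHalfPlane ModularForm CongruenceSubgroup MatrixGroups ModularFormClass EisensteinSeries
open Fermat.Agent.S20 (MF SF)
open Fermat.Agent.S22T (deltaSeries tau)
open Fermat.Agent.S23.LevelOne (monoForm qMono)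
open scoped Manifold

local notation "Δ" => ModularForm.discriminant

/-- Division by `Δ` preserves integrality of power series. -/
theorem int_of_deltaSeries_mul (P : PowerSeries ℂ) (Fz : PowerSeries ℤ)
    (h : (deltaSeries.map (Int.castRingHom ℂ)) * P = Fz.map (Int.castRingHom ℂ)) :
    ∃ Pz : PowerSeries ℤ, P = Pz.map (Int.castRingHom ℂ) := by
  have hD0 : deltaSeries.coeff 0 = 0 := Fermat.Agent.S22T.tau_zero
  have hD1 : deltaSeries.coeff 1 = 1 := Fermat.Agent.S22T.tau_one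
  set U : PowerSeries ℤ := PowerSeries.mk fun n => deltaSeries.coeff (n + 1) with hU
  have hDU : deltaSeries = PowerSeries.X * U := by
    ext n
    rcases n with _ | n
    · simp [hD0]
    · rw [PowerSeries.coeff_succ_X_mul]
      simp [hU]
  have hUunit : IsUnit U := by
    rw [PowerSeries.isUnit_iff_constantCoeff]
    simp [hU, hD1]
  obtain ⟨V, hUV⟩ := hUunit.exists_left_inv
  -- constant coefficient of `Fz`
  have hF0 : Fz.coeff 0 = 0 := by
    have h0 := congrArg PowerSeries.constantCoeff h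
    rw [map_mul] at h0
    have hc : PowerSeries.constantCoeff (deltaSeries.map (Int.castRingHom ℂ)) = 0 := by
      rw [← PowerSeries.coeff_zero_eq_constantCoeff_apply, PowerSeries.coeff_map, hD0]
      simp
    rw [hc, zero_mul, ← PowerSeries.coeff_zero_eq_constantCoeff_apply, PowerSeries.coeff_map] at h0
    have h0' : ((Fz.coeff 0 : ℤ) : ℂ) = 0 := h0.symm
    exact_mod_cast h0'
  set Fz' : PowerSeries ℤ := PowerSeries.mk fun n => Fz.coeff (n + 1) with hFz'
  have hFF' : Fz = PowerSeries.X * Fz' := by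
    ext n
    rcases n with _ | n
    · simp [hF0]
    · rw [PowerSeries.coeff_succ_X_mul]
      simp [hFz']
  have hcancel : (U.map (Int.castRingHom ℂ)) * P = Fz'.map (Int.castRingHom ℂ) := by
    rw [hDU, hFF', map_mul, map_mul, PowerSeries.map_X, mul_assoc] at h
    ext n
    have := congrArg (PowerSeries.coeff (n + 1)) h
    rwa [PowerSeries.coeff_succ_X_mul, PowerSeries.coeff_succ_X_mul] at this
  refine ⟨V * Fz', ?_⟩
  rw [map_mul, ← hcancel, ← mul_assoc, ← map_mul, hUV, map_one, one_mul]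

/-- integral `q`-expansion as a power series over `ℤ` -/
theorem exists_int_series {H : ℍ → ℂ} (hint : IntAll H) :
    ∃ Hz : PowerSeries ℤ, qExpansion 1 H = Hz.map (Int.castRingHom ℂ) := by
  choose m hm using hint
  refine ⟨PowerSeries.mk m, ?_⟩
  ext n
  rw [PowerSeries.coeff_map, PowerSeries.coeff_mk]
  exact hm n

theorem intAll_of_series {H : ℍ → ℂ} (Hz : PowerSeries ℤ)
    (h : qExpansion 1 H = Hz.map (Int.castRingHom ℂ)) : IntAll H := by
  intro n
  refine ⟨Hz.coeff n, ?_⟩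
  simp only [qCoeff]
  rw [h, PowerSeries.coeff_map]
  rfl

/-- One step of the induction: subtract `a₀ E₄^{3j}` and divide by `Δ`. -/
theorem evRho_step (j : ℕ) (g : ModularForm 𝒮ℒ (12 * (j : ℤ))) (hint : IntAll (g : ℍ → ℂ)) :
    ∃ (m0 : ℤ) (H' : ModularForm 𝒮ℒ (12 * (j : ℤ) - 12)), IntAll (H' : ℍ → ℂ) ∧
      ∀ z : ℍ, g z = (m0 : ℂ) * E₄ z ^ (3 * j) + Δ z * H' z := by
  obtain ⟨Gz, hGz⟩ := exists_int_series hint
  set m0 : ℤ := Gz.coeff 0 with hm0
  have hw : 4 * ((3 * j : ℕ) : ℤ) + 6 * ((0 : ℕ) : ℤ) = 12 * (j : ℤ) := by push_cast; ring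
  set E : ModularForm 𝒮ℒ (12 * (j : ℤ)) := ModularForm.mcast hw (monoForm (3 * j) 0) with hE
  have hEq : qExpansion 1 E = (qMono (3 * j) 0).map (Int.castRingHom ℂ) := by
    rw [hE, ModularForm.qExpansion_mcast, Fermat.Agent.S23.LevelOne.qExpansion_monoForm]
  have hEz : ∀ z : ℍ, E z = E₄ z ^ (3 * j) := by
    intro z
    rw [hE, ModularForm.coe_mcast, Fermat.Agent.S23.LevelOne.monoForm_apply]
    simp
  set F : ModularForm 𝒮ℒ (12 * (j : ℤ)) := g - (m0 : ℂ) • E with hF
  have hFq : qExpansion 1 F =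
      (Gz - m0 • qMono (3 * j) 0).map (Int.castRingHom ℂ) := by
    rw [hF, FunLike.coe_sub, ModularForm.qExpansion_sub one_pos one_mem_strictPeriods_SL,
      FunLike.coe_smul, ModularForm.qExpansion_smul one_pos one_mem_strictPeriods_SL, hGz, hEq,
      map_sub]
    congr 1
    ext n
    rw [PowerSeries.coeff_smul, PowerSeries.coeff_map, PowerSeries.coeff_map]
    have : (PowerSeries.coeff n) (m0 • qMono (3 * j) 0) =
        m0 * (PowerSeries.coeff n) (qMono (3 * j) 0) := by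
      rw [zsmul_eq_mul, ← map_intCast (PowerSeries.C (R := ℤ)) m0, PowerSeries.coeff_C_mul]
      simp
    rw [this]
    simp
  have hcusp : (qExpansion 1 F).coeff 0 = 0 := by
    rw [hFq, PowerSeries.coeff_map]
    have : (qMono (3 * j) 0).coeff 0 = 1 := by
      have := Fermat.Agent.S23.LevelOne.constantCoeff_qMono (3 * j) 0
      simpa using this
    simp [hm0, Fermat.Agent.S23.LevelOne.constantCoeff_qMono]
  set H' : ModularForm 𝒮ℒ (12 * (j : ℤ) - 12) :=
    CuspForm.discriminantEquiv (toCuspForm F hcusp) with hH'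
  have hmul := ModularForm.qExpansion_eq_qExpansion_discriminant_mul F hcusp
  have hΔq : qExpansion 1 (Δ : ℍ → ℂ) = deltaSeries.map (Int.castRingHom ℂ) :=
    Fermat.Agent.S22T.qExpansion_discriminant
  rw [hΔq, hFq] at hmul
  obtain ⟨Pz, hPz⟩ := int_of_deltaSeries_mul _ _ hmul.symm
  refine ⟨m0, H', intAll_of_series Pz hPz, fun z => ?_⟩
  have h1 := ModularForm.discriminant_mul_discriminantEquiv_apply (toCuspForm F hcusp) z
  have h2 : (toCuspForm F hcusp) z = F z := rfl
  rw [h2] at h1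
  have h3 : F z = g z - (m0 : ℂ) * E z := by
    rw [hF]
    simp
  rw [← hH'] at h1
  rw [h1, h3, hEz]
  ring

/-- WP L1 `evRho_int`, exact skeleton shape. -/
theorem evRho_int (ρ : ℍ) (hρ : (E₄ : ℍ → ℂ) ρ = 0) (j : ℕ) {H : ℍ → ℂ}
    (hH : H ∈ MF (⊤ : Subgroup SL(2, ℤ)) (12 * j)) (hint : IntAll H) :
    ∃ m : ℤ, H ρ = (m : ℂ) * (Δ : ℍ → ℂ) ρ ^ j := by
  induction j generalizing H with
  | zero =>
    obtain ⟨g, rfl⟩ := Fermat.Agent.S20.C0h516.mem_MF_top_iff_exists.mp hH
    obtain ⟨m0, H', -, hz⟩ := evRho_step 0 g hint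
    have hH'0 : H' = 0 :=
      rank_zero_iff_forall_zero.mp (ModularForm.levelOne_neg_weight_rank_zero (by norm_num)) H'
    refine ⟨m0, ?_⟩
    rw [hz ρ, hH'0]
    simp
  | succ j ih =>
    obtain ⟨g, rfl⟩ := Fermat.Agent.S20.C0h516.mem_MF_top_iff_exists.mp hH
    obtain ⟨m0, H', hH'int, hz⟩ := evRho_step (j + 1) g hint
    have hmem0 : (H' : ℍ → ℂ) ∈ MF (⊤ : Subgroup SL(2, ℤ)) (12 * ((j + 1 : ℕ) : ℤ) - 12) :=
      Fermat.Agent.S20.C0h516.mem_MF_top_iff_exists.mpr ⟨H', rfl⟩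
    have hw : (12 * ((j + 1 : ℕ) : ℤ) - 12) = 12 * (j : ℤ) := by push_cast; ring
    have hcast : ∀ f : ℍ → ℂ, f ∈ MF (⊤ : Subgroup SL(2, ℤ)) (12 * ((j + 1 : ℕ) : ℤ) - 12) →
        f ∈ MF (⊤ : Subgroup SL(2, ℤ)) (12 * (j : ℤ)) := by
      rw [hw]
      exact fun _ h => h
    have hmem := hcast _ hmem0
    obtain ⟨m', hm'⟩ := ih hmem hH'int
    refine ⟨m', ?_⟩
    rw [hz ρ, hm', hρ]
    have : (0 : ℂ) ^ (3 * (j + 1)) = 0 := by
      apply zero_pow
      omega
    rw [this]
    ring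

end Fermat.Agent.S16.H62
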