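import Fermat.Agent.S16.H62.Basic
import Fermat.Agent.S22T.DeltaInt
import Fermat.Agent.S23.LevelOne
import Fermat.Agent.S24.M7.H47Level1
import Fermat.Prelude.Thm_ModularFormClass_qCoeff_heckeT
import Fermat.Prelude.Thm_ModularForm_heckeT_slash_eq_self_of_mem_Gamma0
import Fermat.Prelude.Thm_ModularForm_mdifferentiable_heckeT
import Fermat.Prelude.Thm_CuspFormClass_isZeroAt_heckeT

/-!
# S16 / helper62 : WP L1 — level one facts (exact skeleton shapes)

* `SF_top_fourteen`, `MF_top_two`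
* `exists_tau` (integrality of Ramanujan's `τ`, `τ(p²) = τ(p)² - p¹¹`)
* `evRho_int`, `exists_rho`
-/

set_option autoImplicit false

noncomputable section

namespace Fermat.Agent.S16.H62

open UpperHalfPlane ModularForm CongruenceSubgroup MatrixGroups ModularFormClass EisensteinSeries
open Fermat.Agent.S20 (MF SF)
open scoped Manifold

local notation "Δ" => ModularForm.discriminant

/-! ## Small weights -/

/-- `M₂(SL₂ℤ) = 0`. -/
theorem MF_top_two : MF (⊤ : Subgroup SL(2, ℤ)) 2 = ⊥ := by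
  rw [eq_bot_iff]
  intro f hf
  obtain ⟨g, rfl⟩ := Fermat.Agent.S20.C0h516.mem_MF_top_iff_exists.mp hf
  have hg : g = 0 := rank_zero_iff_forall_zero.mp ModularForm.levelOne_weight_two_rank_zero g
  rw [hg]
  rfl

/-- `S₁₄(SL₂ℤ) = 0`. -/
theorem SF_top_fourteen : SF (⊤ : Subgroup SL(2, ℤ)) 14 = ⊥ := by
  rw [eq_bot_iff]
  intro f hf
  obtain ⟨g, rfl⟩ := Fermat.Agent.S20.C0h516.mem_SF_top_iff_exists.mp hf
  have h2 : Module.rank ℂ (ModularForm 𝒮ℒ ((14 : ℤ) - 12)) = 0 :=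
    ModularForm.levelOne_weight_two_rank_zero
  have hg : CuspForm.discriminantEquiv g = 0 := rank_zero_iff_forall_zero.mp h2 _
  have hg' : g = 0 := by
    simpa using hg
  rw [hg']
  rfl

/-! ## Ramanujan's `τ` -/

theorem mem_Gamma0_one (g : SL(2, ℤ)) : g ∈ Gamma0 1 := by
  rw [Gamma0_mem]
  exact Subsingleton.elim _ _

/-- `T_p Δ` as a level one cusp form of weight 12. -/
def heckeDelta (p : ℕ) (hp : p.Prime) : CuspForm 𝒮ℒ 12 where
  toFun := heckeT 12 p (Δ : ℍ → ℂ)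
  slash_action_eq' := by
    intro γ hγ
    obtain ⟨g, rfl⟩ := hγ
    have hpN : ¬ p ∣ 1 := fun h => hp.one_lt.ne' (Nat.dvd_one.mp h)
    refine ModularForm.heckeT_slash_eq_self_of_mem_Gamma0 (N := 1) 12 hp hpN ?_ _
      (Subgroup.mem_map_of_mem _ (mem_Gamma0_one g))
    rintro γ' ⟨g', -, rfl⟩
    exact SlashInvariantFormClass.slash_action_eq CuspForm.discriminant _ ⟨g', rfl⟩
  holo' := ModularForm.mdifferentiable_heckeT (CuspFormClass.holo CuspForm.discriminant) 12 p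
  zero_at_cusps' := fun hc => CuspFormClass.isZeroAt_heckeT CuspForm.discriminant p hc

theorem coe_heckeDelta (p : ℕ) (hp : p.Prime) :
    (heckeDelta p hp : ℍ → ℂ) = heckeT 12 p (Δ : ℍ → ℂ) := rfl

theorem qCoeff_discriminant (n : ℕ) :
    qCoeff (Δ : ℍ → ℂ) n = (Fermat.Agent.S22T.tau n : ℂ) :=
  Fermat.Agent.S22T.qExpansion_discriminant_coeff n

/-- `τ(p²) = τ(p)² - p¹¹`. -/
theorem tau_prime_sq (p : ℕ) (hp : p.Prime) :
    Fermat.Agent.S22T.tau (p ^ 2) = Fermat.Agent.S22T.tau p ^ 2 - (p : ℤ) ^ 11 := by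
  obtain ⟨c, hc⟩ := CuspForm.exists_smul_discriminant_of_weight_eq_twelve (heckeDelta p hp)
  have hfun : heckeT 12 p (Δ : ℍ → ℂ) = c • (Δ : ℍ → ℂ) := by
    have := congrArg (fun F : CuspForm 𝒮ℒ 12 => (F : ℍ → ℂ)) hc
    change (c • CuspForm.discriminant : CuspForm 𝒮ℒ 12) = heckeT 12 p (Δ : ℍ → ℂ) at this
    rw [← this]
    rfl
  have hq : ∀ n, qCoeff (heckeT 12 p (Δ : ℍ → ℂ)) n =
      coeffHeckeT 12 p (qCoeff (Δ : ℍ → ℂ)) n := fun n =>
    ModularFormClass.qCoeff_heckeT CuspForm.discriminant one_mem_strictPeriods_SL hp.ne_zero n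
  have hq' : ∀ n, qCoeff (c • (Δ : ℍ → ℂ)) n = c * qCoeff (Δ : ℍ → ℂ) n := by
    intro n
    simp only [qCoeff]
    have := ModularForm.qExpansion_smul one_pos one_mem_strictPeriods_SL c CuspForm.discriminant
    rw [CuspForm.coe_discriminant] at this
    rw [this]
    simp
  have h1 := hq 1
  rw [hfun, hq', coeffHeckeT_apply, qCoeff_discriminant, qCoeff_discriminant,
    Fermat.Agent.S22T.tau_one, if_neg (fun h => hp.one_lt.ne' (Nat.dvd_one.mp h))] at h1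
  have hp' := hq p
  rw [hfun, hq', coeffHeckeT_apply, qCoeff_discriminant, qCoeff_discriminant,
    qCoeff_discriminant, if_pos dvd_rfl, Nat.div_self hp.pos, Fermat.Agent.S22T.tau_one] at hp'
  simp only [one_mul, Int.cast_one, mul_one, add_zero] at h1
  have hcτ : c = (Fermat.Agent.S22T.tau p : ℂ) := by simpa using h1
  rw [hcτ, ← pow_two, ← pow_two] at hp'
  have : ((Fermat.Agent.S22T.tau (p ^ 2) : ℤ) : ℂ) =
      ((Fermat.Agent.S22T.tau p ^ 2 - (p : ℤ) ^ 11 : ℤ) : ℂ) := by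
    push_cast
    have h11 : ((p : ℂ)) ^ ((12 : ℤ) - 1) = (p : ℂ) ^ 11 := by
      norm_num
    rw [h11] at hp'
    linear_combination -hp'
  exact_mod_cast this

/-- WP L1 `exists_tau`, exact skeleton shape. -/
theorem exists_tau : ∃ τ : ℕ → ℤ, (∀ n, qCoeff (Δ : ℍ → ℂ) n = (τ n : ℂ)) ∧ τ 0 = 0 ∧ τ 1 = 1 ∧
    ∀ p : ℕ, p.Prime → τ (p ^ 2) = τ p ^ 2 - (p : ℤ) ^ 11 :=
  ⟨Fermat.Agent.S22T.tau, qCoeff_discriminant, Fermat.Agent.S22T.tau_zero,
    Fermat.Agent.S22T.tau_one, tau_prime_sq⟩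

/-- WP L1 `exists_rho`, exact skeleton shape. -/
theorem exists_rho : ∃ ρ : ℍ, (E₄ : ℍ → ℂ) ρ = 0 :=
  ⟨Fermat.Agent.S24.M7.H47.rho, Fermat.Agent.S24.M7.H47.E₄_rho⟩

end Fermat.Agent.S16.H62
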