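import Fermat.Agent.S16.H62.Basic

/-!
# S16 / helper62 : WP UB — arithmetic assembly `upperBound_of` (exact skeleton shape)

`upperBound_of` : from U0 (rationality + denominators divide `p+1` away from `p`),
U2 (Hecke pigeonhole, `ℓ^a ∣ 24`) and U4 (`p ≡ 7 mod 8`) deduce
`24 a₀(G) ∈ gcd(p-1,12) ℤ` for every `G ∈ M₂(Γ₀(p))` with integral higher coefficients.
-/

set_option autoImplicit false

noncomputable section

namespace Fermat.Agent.S16.H62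

open UpperHalfPlane ModularForm CongruenceSubgroup MatrixGroups ModularFormClass
open Fermat.Agent.S20 (MF SF)

/-- pure arithmetic: the final bookkeeping. -/
theorem gcd_mul_dvd_24 (p t : ℕ) (hp5 : 5 ≤ p) (hp : p.Prime) (ht : t ∣ 24)
    (h3 : 3 ∣ t → 3 ∣ p + 1) (h4 : 4 ∣ t → 4 ∣ p + 1) (h8 : ¬ 8 ∣ t) :
    Nat.gcd (p - 1) 12 * t ∣ 24 := by
  have hν : Nat.gcd (p - 1) 12 = Nat.gcd ((p - 1) % 12) 12 := by
    rw [Nat.gcd_comm, Nat.gcd_rec]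
  have hc : (p - 1) % 12 < 12 := Nat.mod_lt _ (by norm_num)
  have hodd : p % 2 = 1 := by
    rcases hp.eq_two_or_odd with h | h
    · omega
    · exact h
  have ht24 : t ≤ 24 := Nat.le_of_dvd (by norm_num) ht
  have ht0 : 0 < t := Nat.pos_of_dvd_of_pos ht (by norm_num)
  rw [hν]
  generalize hcd : (p - 1) % 12 = c at hc
  interval_cases t <;> first
    | (exfalso; revert ht; decide)
    | (exfalso; apply h8; decide)
    | (have h3' := h3 (by decide); have h4' := h4 (by decide);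
       interval_cases c <;> first | decide | (exfalso; omega))
    | (have h3' := h3 (by decide); interval_cases c <;> first | decide | (exfalso; omega))
    | (have h4' := h4 (by decide); interval_cases c <;> first | decide | (exfalso; omega))
    | (interval_cases c <;> first | decide | (exfalso; omega))

/-- WP UB, exact skeleton shape. -/
theorem upperBound_of (p : ℕ) [Fact p.Prime] (hp5 : 5 ≤ p)
    (hU0 : ∀ G ∈ MF (Gamma0 p) 2, IntFrom1 G →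
      ∃ r : ℚ, qCoeff G 0 = (r : ℂ) ∧
        ∀ ℓ : ℕ, ℓ.Prime → ℓ ≠ p → ∀ a : ℕ, ℓ ^ a ∣ r.den → ℓ ^ a ∣ p + 1)
    (hU2 : ∀ G ∈ MF (Gamma0 p) 2, ∀ (ℓ : ℕ), ℓ.Prime → ∀ (a : ℕ) (s : ℤ), ¬ (ℓ : ℤ) ∣ s →
      qCoeff G 0 = (s : ℂ) →
      (∀ k : ℕ, 1 ≤ k → ∃ m : ℤ, qCoeff G k = ((ℓ : ℂ) ^ a) * (m : ℂ)) → ℓ ^ a ∣ 24)
    (hU4 : p % 8 = 7 → ∀ G ∈ MF (Gamma0 p) 2, ∀ s : ℤ, Odd s → qCoeff G 0 = (s : ℂ) →
      (∀ k : ℕ, 1 ≤ k → ∃ m : ℤ, qCoeff G k = 8 * (m : ℂ)) → False) :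
    ∀ G ∈ MF (Gamma0 p) 2, IntFrom1 G →
      ∃ m : ℤ, 24 * qCoeff G 0 = (Nat.gcd (p - 1) 12 : ℂ) * (m : ℂ) := by
  have hp : p.Prime := Fact.out
  have : NeZero p := ⟨hp.ne_zero⟩
  intro G hG hint
  obtain ⟨r, hr0, hrden⟩ := hU0 G hG hint
  set t : ℕ := r.den with ht_def
  set s : ℤ := r.num with hs_def
  have ht0 : 0 < t := r.den_pos
  have hcop : s.natAbs.Coprime t := r.reduced
  -- the scaled form
  have hG2 : ((t : ℂ) • G) ∈ MF (Gamma0 p) 2 := Submodule.smul_mem _ _ hG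
  have hrt : (t : ℂ) * (r : ℂ) = (s : ℂ) := by
    have h := Rat.mul_den_eq_num r
    have h' : ((r * (r.den : ℚ) : ℚ) : ℂ) = ((r.num : ℚ) : ℂ) := by rw [h]
    push_cast at h'
    rw [mul_comm]
    exact_mod_cast h'
  have hG2_0 : qCoeff ((t : ℂ) • G) 0 = (s : ℂ) := by
    rw [qCoeff_smul_of_mem hG, hr0, hrt]
  -- coprimality consequences
  have hnd : ∀ ℓ : ℕ, ℓ.Prime → ℓ ∣ t → ¬ (ℓ : ℤ) ∣ s := by
    intro ℓ hℓ hℓt hℓs
    have h1 : ℓ ∣ s.natAbs := Int.natCast_dvd.mp hℓs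
    have h2 : ℓ ∣ Nat.gcd s.natAbs t := Nat.dvd_gcd h1 hℓt
    rw [hcop] at h2
    exact hℓ.one_lt.ne' (Nat.dvd_one.mp h2)
  -- Claim A
  have hA : ∀ ℓ : ℕ, ℓ.Prime → ∀ a : ℕ, ℓ ^ a ∣ t → ℓ ^ a ∣ 24 := by
    intro ℓ hℓ a ha
    rcases Nat.eq_zero_or_pos a with rfl | hapos
    · simp
    have hℓt : ℓ ∣ t := dvd_trans (dvd_pow_self ℓ hapos.ne') ha
    refine hU2 _ hG2 ℓ hℓ a s (hnd ℓ hℓ hℓt) hG2_0 ?_
    intro k hk
    obtain ⟨m, hm⟩ := hint k hk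
    obtain ⟨u, hu⟩ := ha
    refine ⟨(u : ℤ) * m, ?_⟩
    rw [qCoeff_smul_of_mem hG, hm, hu]
    push_cast
    ring
  have ht24 : t ∣ 24 := by
    rw [← Nat.factorization_le_iff_dvd ht0.ne' (by norm_num)]
    intro ℓ
    by_cases hℓ : ℓ.Prime
    · have := hA ℓ hℓ (t.factorization ℓ) (Nat.ordProj_dvd t ℓ)
      exact (hℓ.pow_dvd_iff_le_factorization (by norm_num)).mp this
    · simp [Nat.factorization_eq_zero_of_not_prime t hℓ]
  have h3 : 3 ∣ t → 3 ∣ p + 1 := fun h =>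
    by simpa using hrden 3 Nat.prime_three (by omega) 1 (by simpa using h)
  have h4 : 4 ∣ t → 4 ∣ p + 1 := fun h => by
    have := hrden 2 Nat.prime_two (by omega) 2 (by simpa using h)
    simpa using this
  have h8 : ¬ 8 ∣ t := by
    intro h
    have h8p : 8 ∣ p + 1 := by
      have := hrden 2 Nat.prime_two (by omega) 3 (by simpa using h)
      simpa using this
    have hp8 : p % 8 = 7 := by omega
    have hsodd : Odd s := by
      have h2t : 2 ∣ t := dvd_trans (by norm_num) h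
      have := hnd 2 Nat.prime_two h2t
      rcases Int.even_or_odd s with he | ho
      · exact absurd (even_iff_two_dvd.mp he) (by simpa using this)
      · exact ho
    refine hU4 hp8 _ hG2 s hsodd hG2_0 ?_
    intro k hk
    obtain ⟨m, hm⟩ := hint k hk
    obtain ⟨u, hu⟩ := h
    refine ⟨(u : ℤ) * m, ?_⟩
    rw [qCoeff_smul_of_mem hG, hm, hu]
    push_cast
    ring
  obtain ⟨u, hu⟩ := gcd_mul_dvd_24 p t hp5 hp ht24 h3 h4 h8
  refine ⟨(u : ℤ) * s, ?_⟩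
  rw [hr0]
  have htc : (t : ℂ) ≠ 0 := by exact_mod_cast ht0.ne'
  have h24 : (24 : ℂ) = (Nat.gcd (p - 1) 12 : ℂ) * (t : ℂ) * (u : ℂ) := by
    exact_mod_cast congrArg (Nat.cast : ℕ → ℂ) hu
  rw [h24]
  push_cast
  rw [← hrt]
  ring

/-- Tail of WP TH `lowerBound`: a form `θ ∈ M₂(Γ₀(p))` with `a₀ = 1` and even higher coefficients
gives the lower bound witness `θ/2`. -/
theorem lowerBound_of_theta (p : ℕ) [Fact p.Prime] (θ : ℍ → ℂ) (hmem : θ ∈ MF (Gamma0 p) 2)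
    (h0 : qCoeff θ 0 = 1)
    (hk : ∀ k : ℕ, 1 ≤ k → ∃ m : ℤ, qCoeff θ k = 2 * (m : ℂ)) :
    ∃ G ∈ MF (Gamma0 p) 2, qCoeff G 0 = 1 / 2 ∧ IntFrom1 G := by
  have hp : p.Prime := Fact.out
  have : NeZero p := ⟨hp.ne_zero⟩
  refine ⟨(1 / 2 : ℂ) • θ, Submodule.smul_mem _ _ hmem, ?_, ?_⟩
  · rw [qCoeff_smul_of_mem hmem, h0, mul_one]
  · intro k hk1
    obtain ⟨m, hm⟩ := hk k hk1
    refine ⟨m, ?_⟩
    rw [qCoeff_smul_of_mem hmem, hm]
    ring

end Fermat.Agent.S16.H62
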